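/-
MLT (project S59) / [L2-JL], (H3) (lead): **the value of a norm (and of a characteristic polynomial) at a place,
in ANY characteristic** -- port of `Lib/T3/Hecke/{NormValuePlace,AlongValue}.lean` (helper5) without `CharZero`.

`K` algebraically closed, `F'/F` a finite SEPARABLE extension of function fields over `K`, `v` a place of `F`.
If `h : F'` has the value `c w ∈ K` at every place `w` of `F'` over `v`, then
* `N_{F'/F} h` has the value `∏_w (c w) ^ e(w)` at `v` (`mltnv_norm_value`, `mltnv_norm_value_along`);
* the characteristic polynomial of `h` over `F` has coefficients in `O_v` and reduces at `v` to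
  `∏_w (X - c w) ^ e(w)` (`mltnv_charpoly_value`, `mltnv_charpoly_value_along`).
-/
import Mathlib
import Fermat.Agent.Lib.T3.Hecke.NormValuePlace
import Fermat.Agent.Lib.T3.Hecke.AlongValue
import Fermat.Agent.Lib.MLT.L1.Nine.NormLocal
import Fermat.Agent.Lib.MLT.L2.NV.Residue

set_option autoImplicit false
set_option linter.unusedSectionVars false
set_option linter.unusedVariables false
set_option linter.style.haveILetI false

namespace Fermat.Agent.MLT

open AlgebraicCurve IsDedekindDomain WithZero Fermat.Agent.Curve Fermat.Agent.Curve.PlaceAux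
  Fermat.Agent.T3

variable {K F F' : Type*} [Field K] [Field F] [Field F'] [Algebra K F] [Algebra K F']
  [Algebra F F'] [IsScalarTower K F F'] [FiniteDimensional F F'] [Algebra.IsSeparable F F']
  (v : Place K F)

attribute [local instance] t3hS_isDedekindDomain t3hS_isFractionRing t3hS_moduleFinite
  t3hS_algebra t3hS_isScalarTower t3hS_fintype

variable [IsAlgClosed K]

/-- **value of a norm at a place** (any characteristic), indexed by the primes of the integral closure of
`O_v` -/
theorem mltnv_norm_value_aux {x : F} (hx : IsFunctionFieldGen K F x) {x' : F'}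
    (hx' : IsFunctionFieldGen K F' x') (h : F')
    (c : HeightOneSpectrum (t3hS F' v) → K)
    (hc : ∀ Q, OrdGE (t3hPlace v Q) (h - algebraMap K F' (c Q)) 1) :
    OrdGE v (Algebra.norm F h
      - algebraMap K F (∏ Q, c Q ^ (t3hPlace v Q).ramificationIndex F)) 1 := by
  haveI : IsAlgClosed (IsLocalRing.ResidueField v.toValuationSubring) :=
    t3h_isAlgClosed_residueField v hx
  haveI : Module.Free v.toValuationSubring (t3hS F' v) :=
    Module.free_of_finite_type_torsion_free'
  -- `h` is integral over `O_v`
  have hint : h ∈ (algebraMap (t3hS F' v) F').range := by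
    apply HeightOneSpectrum.mem_integers_of_valuation_le_one
    intro Q
    rw [← t3hPlace_adicValuation, ← mem_iff_adicValuation_le_one]
    have h1 : h - algebraMap K F' (c Q) ∈ (t3hPlace v Q).toValuationSubring :=
      (ordGE_zero_iff_mem _).mp ((hc Q).mono _ (by norm_num))
    have h2 := (t3hPlace v Q).toValuationSubring.add_mem _ _ h1 (algebraMap_mem _ (c Q))
    rwa [sub_add_cancel] at h2
  obtain ⟨xS, rfl⟩ := hint
  obtain ⟨t, ht⟩ := IsDiscreteValuationRing.exists_irreducible v.toValuationSubring
  have hres := mltnv_residue_norm (R := v.toValuationSubring) (S := t3hS F' v)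
    (t3h_inertiaDeg_eq_one v hx') ht.maximalIdeal_eq
    (fun Q => (t3hPlace v Q).ramificationIndex F) (t3h_intValuation_uniformizer v t ht) xS
    (fun Q => algebraMap K v.toValuationSubring (c Q)) (fun Q => by
      rw [t3h_mem_iff_ordGE]
      have heq : algebraMap (t3hS F' v) F'
          (xS - algebraMap v.toValuationSubring (t3hS F' v)
            (algebraMap K v.toValuationSubring (c Q)))
          = algebraMap (t3hS F' v) F' xS - algebraMap K F' (c Q) := by
        rw [map_sub]
        congr 1
        show algebraMap F F' (algebraMap K F (c Q)) = algebraMap K F' (c Q)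
        rw [← IsScalarTower.algebraMap_apply]
      rw [heq]
      exact hc Q)
  -- translate back
  have hN : algebraMap v.toValuationSubring F (Algebra.norm v.toValuationSubring xS)
      = Algebra.norm F (algebraMap (t3hS F' v) F' xS) := by
    rw [← Algebra.intNorm_eq_norm, Algebra.algebraMap_intNorm (A := v.toValuationSubring)
      (K := F) (L := F') (B := t3hS F' v)]
  rw [← hN]
  have hmem : Algebra.norm v.toValuationSubring xS
      - algebraMap K v.toValuationSubring (∏ Q, c Q ^ (t3hPlace v Q).ramificationIndex F)
      ∈ IsLocalRing.maximalIdeal v.toValuationSubring := by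
    rw [← IsLocalRing.residue_eq_zero_iff, map_sub, hres, sub_eq_zero, map_prod, map_prod]
    refine Finset.prod_congr rfl fun Q _ => ?_
    rw [map_pow, map_pow]
  exact (t3h_ordGE_one_iff v _).mpr hmem

/-- **norm formula at a place** (any characteristic), fibre form: `ord_v (N f) = ∑_{w ∣ v} ord_w f` -/
theorem mltnv_ord_norm_fiber [HasPrincipalDivisors K F'] {x' : F'}
    (hx' : IsFunctionFieldGen K F' x') (f : F') (hf : f ≠ 0) :
    v.ord (Algebra.norm F f) = ∑ w ∈ v.fiber F', w.ord f := by
  classical
  rw [mltl9_ord_norm v hx' f hf, ← t3h_image_eq_fiber v,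
    Finset.sum_image fun Q _ Q' _ h => t3hPlace_injective v h]

/-- **value of a norm at a place** (any characteristic): if `h` has the value `c w` at every `w ∣ v`, then
`N h` has the value `∏_{w ∣ v} (c w) ^ e(w)` at `v` -/
theorem mltnv_norm_value [HasPrincipalDivisors K F'] {x : F} (hx : IsFunctionFieldGen K F x)
    {x' : F'} (hx' : IsFunctionFieldGen K F' x') (h : F') (c : Place K F' → K)
    (hc : ∀ w ∈ v.fiber F', OrdGE w (h - algebraMap K F' (c w)) 1) :
    OrdGE v (Algebra.norm F h
      - algebraMap K F (∏ w ∈ v.fiber F', c w ^ w.ramificationIndex F)) 1 := by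
  classical
  have h1 := mltnv_norm_value_aux v hx hx' h (fun Q => c (t3hPlace v Q)) (fun Q =>
    hc _ (Place.mem_fiber.mpr (t3hPlace_restrict v Q)))
  rw [← t3h_image_eq_fiber v, Finset.prod_image fun Q _ Q' _ h => t3hPlace_injective v h]
  exact h1


/-! ### The characteristic polynomial -/

section Charpoly

open Polynomial

/-- the characteristic polynomial over `F` of an element of the integral closure `S` of `O_v` is the image of
its characteristic polynomial over `O_v` -/
theorem mltnv_charpoly_map [Module.Free v.toValuationSubring (t3hS F' v)] (xS : t3hS F' v) :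
    (mltnvP v.toValuationSubring xS).map (algebraMap v.toValuationSubring F)
      = (LinearMap.mulLeft F (algebraMap (t3hS F' v) F' xS)).charpoly := by
  classical
  haveI : IsLocalization (Algebra.algebraMapSubmonoid (t3hS F' v) (nonZeroDivisors v.toValuationSubring)) F' :=
    IsIntegralClosure.isLocalization v.toValuationSubring F F' (t3hS F' v)
  let b := Module.Free.chooseBasis v.toValuationSubring (t3hS F' v)
  have h1 : mltnvP v.toValuationSubring xS = (Algebra.leftMulMatrix b xS).charpoly := by
    rw [mltnvP, Algebra.leftMulMatrix_apply, LinearMap.charpoly_toMatrix]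
  have h2 : (LinearMap.mulLeft F (algebraMap (t3hS F' v) F' xS)).charpoly
      = (Algebra.leftMulMatrix (b.localizationLocalization F (nonZeroDivisors v.toValuationSubring) F')
          (algebraMap (t3hS F' v) F' xS)).charpoly := by
    rw [Algebra.leftMulMatrix_apply, LinearMap.charpoly_toMatrix]
    rfl
  rw [h1, h2, ← Algebra.map_leftMulMatrix_localization v.toValuationSubring
    (nonZeroDivisors v.toValuationSubring) b xS, RingHom.mapMatrix_apply, Matrix.charpoly_map]

/-- **value of a characteristic polynomial at a place** (any characteristic), indexed by the primes of the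
integral closure of `O_v`: the `n`-th coefficient of the characteristic polynomial of `h` over `F` has the value
`coeff_n ∏_Q (X - c Q) ^ e(Q)` at `v` -/
theorem mltnv_charpoly_value_aux {x : F} (hx : IsFunctionFieldGen K F x) {x' : F'}
    (hx' : IsFunctionFieldGen K F' x') (h : F')
    (c : HeightOneSpectrum (t3hS F' v) → K)
    (hc : ∀ Q, OrdGE (t3hPlace v Q) (h - algebraMap K F' (c Q)) 1) (n : ℕ) :
    OrdGE v ((LinearMap.mulLeft F h).charpoly.coeff n
      - algebraMap K F ((∏ Q, (X - C (c Q)) ^ (t3hPlace v Q).ramificationIndex F).coeff n)) 1 := by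
  haveI : IsAlgClosed (IsLocalRing.ResidueField v.toValuationSubring) :=
    t3h_isAlgClosed_residueField v hx
  haveI : Module.Free v.toValuationSubring (t3hS F' v) :=
    Module.free_of_finite_type_torsion_free'
  -- `h` is integral over `O_v`
  have hint : h ∈ (algebraMap (t3hS F' v) F').range := by
    apply HeightOneSpectrum.mem_integers_of_valuation_le_one
    intro Q
    rw [← t3hPlace_adicValuation, ← mem_iff_adicValuation_le_one]
    have h1 : h - algebraMap K F' (c Q) ∈ (t3hPlace v Q).toValuationSubring :=
      (ordGE_zero_iff_mem _).mp ((hc Q).mono _ (by norm_num))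
    have h2 := (t3hPlace v Q).toValuationSubring.add_mem _ _ h1 (algebraMap_mem _ (c Q))
    rwa [sub_add_cancel] at h2
  obtain ⟨xS, rfl⟩ := hint
  obtain ⟨t, ht⟩ := IsDiscreteValuationRing.exists_irreducible v.toValuationSubring
  have hres := mltnv_map_charpoly_eq_prod' (R := v.toValuationSubring) (S := t3hS F' v)
    (t3h_inertiaDeg_eq_one v hx') ht.maximalIdeal_eq
    (fun Q => (t3hPlace v Q).ramificationIndex F) (t3h_intValuation_uniformizer v t ht) xS
    (fun Q => algebraMap K v.toValuationSubring (c Q)) (fun Q => by
      rw [t3h_mem_iff_ordGE]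
      have heq : algebraMap (t3hS F' v) F'
          (xS - algebraMap v.toValuationSubring (t3hS F' v)
            (algebraMap K v.toValuationSubring (c Q)))
          = algebraMap (t3hS F' v) F' xS - algebraMap K F' (c Q) := by
        rw [map_sub]
        congr 1
        show algebraMap F F' (algebraMap K F (c Q)) = algebraMap K F' (c Q)
        rw [← IsScalarTower.algebraMap_apply]
      rw [heq]
      exact hc Q)
  -- the product over `K`
  have hprod : (∏ Q : HeightOneSpectrum (t3hS F' v),
        (X - C (IsLocalRing.residue v.toValuationSubring (algebraMap K v.toValuationSubring (c Q))))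
          ^ (t3hPlace v Q).ramificationIndex F)
      = (∏ Q : HeightOneSpectrum (t3hS F' v),
          (X - C (c Q)) ^ (t3hPlace v Q).ramificationIndex F).map
        ((IsLocalRing.residue v.toValuationSubring).comp (algebraMap K v.toValuationSubring)) := by
    rw [Polynomial.map_prod]
    refine Finset.prod_congr rfl fun Q _ => ?_
    rw [Polynomial.map_pow, Polynomial.map_sub, Polynomial.map_X, Polynomial.map_C]
    rfl
  rw [hprod] at hres
  have hco := congrArg (fun p => Polynomial.coeff p n) hres
  simp only [Polynomial.coeff_map] at hco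
  rw [← mltnv_charpoly_map v xS, Polynomial.coeff_map]
  have hmem : (mltnvP v.toValuationSubring xS).coeff n
      - algebraMap K v.toValuationSubring
        ((∏ Q : HeightOneSpectrum (t3hS F' v),
          (X - C (c Q)) ^ (t3hPlace v Q).ramificationIndex F).coeff n)
      ∈ IsLocalRing.maximalIdeal v.toValuationSubring := by
    rw [← IsLocalRing.residue_eq_zero_iff, map_sub, hco, sub_eq_zero]
    rfl
  exact (t3h_ordGE_one_iff v _).mpr hmem

/-- **value of a characteristic polynomial at a place** (any characteristic): if `h` has the value `c w` at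
every `w ∣ v`, then the `n`-th coefficient of the characteristic polynomial of `h` over `F` has the value
`coeff_n ∏_{w ∣ v} (X - c w) ^ e(w)` at `v` -/
theorem mltnv_charpoly_value [HasPrincipalDivisors K F'] {x : F} (hx : IsFunctionFieldGen K F x)
    {x' : F'} (hx' : IsFunctionFieldGen K F' x') (h : F') (c : Place K F' → K)
    (hc : ∀ w ∈ v.fiber F', OrdGE w (h - algebraMap K F' (c w)) 1) (n : ℕ) :
    OrdGE v ((LinearMap.mulLeft F h).charpoly.coeff n
      - algebraMap K F ((∏ w ∈ v.fiber F', (X - C (c w)) ^ w.ramificationIndex F).coeff n)) 1 := by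
  classical
  have h1 := mltnv_charpoly_value_aux v hx hx' h (fun Q => c (t3hPlace v Q)) (fun Q =>
    hc _ (Place.mem_fiber.mpr (t3hPlace_restrict v Q))) n
  rw [← t3h_image_eq_fiber v, Finset.prod_image fun Q _ Q' _ h => t3hPlace_injective v h]
  exact h1

end Charpoly

end Fermat.Agent.MLT
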