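/-
MLT (project S59) / [L2-JL], (H3) (lead): **the value of a norm and of a characteristic polynomial at a place,
along a separable homomorphism `φ : F → F'` of function fields over an algebraically closed field of ANY
characteristic** (port of `Lib/T3/Hecke/AlongValue.lean` without `CharZero`).

* `mltnv_ord_norm_along`        : `ord_v (N f) = ∑_{w ∘ φ = v} ord_w f`;
* `mltnv_norm_value_along`      : if `h` has the value `c w` at every place `w` over `v`, then `N h` has the value
                                  `∏_w (c w) ^ e(w)` at `v`;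
* `mltnvCharpolyAlong φ h`      : the characteristic polynomial of `h` over `φ F`, as a polynomial over `F`;
* `mltnv_charpoly_value_along`  : its `n`-th coefficient has the value `coeff_n ∏_w (X - c w) ^ e(w)` at `v`.
-/
import Mathlib
import Fermat.Agent.Lib.T3.Hecke.Along
import Fermat.Agent.Lib.MLT.L2.NV.Place

set_option autoImplicit false
set_option linter.unusedSectionVars false
set_option linter.unusedVariables false
set_option linter.style.haveILetI false

namespace Fermat.Agent.MLT

open AlgebraicCurve IsDedekindDomain WithZero Fermat.Agent.Curve Fermat.Agent.Curve.PlaceAux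
  Fermat.Agent.T3 Polynomial

variable {K F F' : Type*} [Field K] [Field F] [Field F'] [Algebra K F] [Algebra K F']

/-- the characteristic polynomial of `h : F'` over `φ F`, as a polynomial over `F` -/
noncomputable def mltnvCharpolyAlong (φ : F →ₐ[K] F') (hfin : FiniteAlong K φ) (h : F') : F[X] :=
  letI := algebraAlong φ
  haveI : Module.Finite F F' := hfin
  (LinearMap.mulLeft F h).charpoly

theorem mltnvCharpolyAlong_monic (φ : F →ₐ[K] F') (hfin : FiniteAlong K φ) (h : F') :
    (mltnvCharpolyAlong φ hfin h).Monic := by
  letI := algebraAlong φ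
  haveI : Module.Finite F F' := hfin
  exact LinearMap.charpoly_monic _

theorem mltnvCharpolyAlong_natDegree (φ : F →ₐ[K] F') (hfin : FiniteAlong K φ) (h : F') :
    (mltnvCharpolyAlong φ hfin h).natDegree = finrankAlong K φ := by
  letI := algebraAlong φ
  haveI : Module.Finite F F' := hfin
  exact LinearMap.charpoly_natDegree _

/-- `χ_h(g) = N (φ g - h)` -/
theorem mltnvCharpolyAlong_eval (φ : F →ₐ[K] F') (hfin : FiniteAlong K φ) (h : F') (g : F) :
    (mltnvCharpolyAlong φ hfin h).eval g = t3hNormAlong φ (φ g - h) := by
  letI := algebraAlong φ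
  haveI : Module.Finite F F' := hfin
  show (LinearMap.mulLeft F h).charpoly.eval g = Algebra.norm F (algebraMap F F' g - h)
  rw [LinearMap.eval_charpoly, Algebra.norm_apply]
  congr 1
  ext y
  simp [Algebra.smul_def, sub_mul]

variable [IsAlgClosed K]

/-- **norm formula along a separable `φ`** (any characteristic): `ord_v (N f) = ∑_{w ∘ φ = v} ord_w f` -/
theorem mltnv_ord_norm_along [HasPrincipalDivisors K F'] {x : F} (hx : IsFunctionFieldGen K F x)
    {x' : F'} (hx' : IsFunctionFieldGen K F' x') (φ : F →ₐ[K] F')
    (hφ : φ.toRingHom.IsIntegral)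
    (hsep : letI := algebraAlong φ; Algebra.IsSeparable F F')
    (v : Place K F) (f : F') (hf : f ≠ 0) :
    v.ord (t3hNormAlong φ f) = ∑ w ∈ Place.fiberAlong φ hφ v, w.ord f := by
  letI := algebraAlong φ
  haveI := isScalarTower_along φ
  haveI := isIntegral_along φ hφ
  haveI : Module.Finite F F' := t3h_finiteAlong hx hx' φ
  haveI : Algebra.IsSeparable F F' := hsep
  exact mltnv_ord_norm_fiber v hx' f hf

/-- **value of a norm along a separable `φ`** (any characteristic): if `h` has the value `c w` at every place
`w` of `F'` over `v`, then `N h` has the value `∏_w (c w) ^ e(w)` at `v` -/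
theorem mltnv_norm_value_along [HasPrincipalDivisors K F'] {x : F} (hx : IsFunctionFieldGen K F x)
    {x' : F'} (hx' : IsFunctionFieldGen K F' x') (φ : F →ₐ[K] F')
    (hφ : φ.toRingHom.IsIntegral)
    (hsep : letI := algebraAlong φ; Algebra.IsSeparable F F')
    (v : Place K F) (h : F') (c : Place K F' → K)
    (hc : ∀ w ∈ Place.fiberAlong φ hφ v, OrdGE w (h - algebraMap K F' (c w)) 1) :
    OrdGE v (t3hNormAlong φ h
      - algebraMap K F (∏ w ∈ Place.fiberAlong φ hφ v, c w ^ w.ramificationIndexAlong φ)) 1 := by
  letI := algebraAlong φ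
  haveI := isScalarTower_along φ
  haveI := isIntegral_along φ hφ
  haveI : Module.Finite F F' := t3h_finiteAlong hx hx' φ
  haveI : Algebra.IsSeparable F F' := hsep
  exact mltnv_norm_value v hx hx' h c hc

/-- **value of a characteristic polynomial along a separable `φ`** (any characteristic): if `h` has the value
`c w` at every place `w` of `F'` over `v`, then the `n`-th coefficient of the characteristic polynomial of `h`
over `φ F` has the value `coeff_n ∏_w (X - c w) ^ e(w)` at `v` -/
theorem mltnv_charpoly_value_along [HasPrincipalDivisors K F'] {x : F}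
    (hx : IsFunctionFieldGen K F x) {x' : F'} (hx' : IsFunctionFieldGen K F' x') (φ : F →ₐ[K] F')
    (hφ : φ.toRingHom.IsIntegral)
    (hsep : letI := algebraAlong φ; Algebra.IsSeparable F F')
    (v : Place K F) (h : F') (c : Place K F' → K)
    (hc : ∀ w ∈ Place.fiberAlong φ hφ v, OrdGE w (h - algebraMap K F' (c w)) 1) (n : ℕ) :
    OrdGE v ((mltnvCharpolyAlong φ (t3h_finiteAlong hx hx' φ) h).coeff n
      - algebraMap K F ((∏ w ∈ Place.fiberAlong φ hφ v,
          (X - C (c w)) ^ w.ramificationIndexAlong φ).coeff n)) 1 := by
  letI := algebraAlong φ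
  haveI := isScalarTower_along φ
  haveI := isIntegral_along φ hφ
  haveI : Module.Finite F F' := t3h_finiteAlong hx hx' φ
  haveI : Algebra.IsSeparable F F' := hsep
  exact mltnv_charpoly_value v hx hx' h c hc n

end Fermat.Agent.MLT
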